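/-
T1-B (helper9): S18 from its inputs.

`ts_s18_of_inputs`: the statement of S18 (reduction mod `ℓ` is injective on the prime-to-`ℓ`
torsion of `J₀(N)`), from
* (NF) the Gauss normal form at level `N`: every `f ∈ F_N^×` is `c · a / b` with `c ∈ ℚ̄^×` and
  `a, b ∈ F_N ∩ A((q))` with nonzero reductions in `F̄_N`;
* (CONST) functions of `F̄_N` without zeros and poles are constants, constants lift to `A`;
* (K12) `y ∈ F_N` with `m ∣ div y`, `y = a / b` with `ā = b̄ ≠ 0`  ⟹  `y ∈ F_N^{×m}`
  (= K1 at the auxiliary level + K2).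
Only the given `h : ReductionInputsModL A N` is used for the reduction of places.
-/
import Fermat.Statements.S18
import Fermat.Agent.Lib.T1.Inst.Normal
import Fermat.Agent.Lib.S24.Count
import Fermat.Agent.Lib.CurveP.RiemannRoch

set_option autoImplicit false
set_option linter.style.haveILetI false
set_option linter.unusedSectionVars false
set_option synthInstance.maxHeartbeats 400000

namespace Fermat.Agent.T1

open ModularCurve AlgebraicCurve HahnSeries Fermat.Agent.Curve

local notation "Qb" => AlgebraicClosure ℚ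

noncomputable section

variable (N : ℕ) [NeZero N] (A : ValuationSubring Qb)

variable {N A}

/-- separability in characteristic zero -/
theorem ts_isSeparable_jBar :
    Algebra.IsSeparable ↥(IntermediateField.adjoin Qb {Fermat.Agent.S24Lib.jBar N})
      ↥(modularFunctionFieldBar N) := by
  haveI := (Fermat.Agent.S24Lib.isFunctionFieldGen_jBar N).finite
  haveI : CharZero ↥(IntermediateField.adjoin Qb {Fermat.Agent.S24Lib.jBar N}) :=
    charZero_of_injective_algebraMap
      (algebraMap Qb ↥(IntermediateField.adjoin Qb {Fermat.Agent.S24Lib.jBar N})).injective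
  infer_instance

/-- the reduction of the divisor of a function in Gauss normal form -/
theorem ts_mapDomain_div
    {r : Place Qb (modularFunctionFieldBar N) →
      Place (IsLocalRing.ResidueField ↥A)
        (modularFunctionFieldFullC (IsLocalRing.ResidueField ↥A) N)}
    (hr : IsPlaceReductionModL A N r)
    {f : ↥(modularFunctionFieldBar N)} {c : Qb} {a b : LaurentSeries ↥A}
    (hn : TsNormal N A f c a b)
    (D : Divisor Qb (modularFunctionFieldBar N)) (hD : ∀ P, D P = P.ord f)
    (Q : Place (IsLocalRing.ResidueField ↥A)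
      (modularFunctionFieldFullC (IsLocalRing.ResidueField ↥A) N)) :
    Finsupp.mapDomain r D Q =
      Q.ord (⟨coeffMap (IsLocalRing.residue ↥A) a, hn.2.2.2.1⟩ :
        modularFunctionFieldFullC (IsLocalRing.ResidueField ↥A) N) -
      Q.ord (⟨coeffMap (IsLocalRing.residue ↥A) b, hn.2.2.2.2.1⟩ :
        modularFunctionFieldFullC (IsLocalRing.ResidueField ↥A) N) := by
  obtain ⟨hc, haF, hbF, hak, hbk, ha0, hb0, hfab⟩ := hn
  have hx := Fermat.Agent.S24Lib.isFunctionFieldGen_jBar N
  haveI := ts_isSeparable_jBar (N := N)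
  set fa : ↥(modularFunctionFieldBar N) := ⟨coeffMap A.subtype a, haF⟩ with hfa
  set fb : ↥(modularFunctionFieldBar N) := ⟨coeffMap A.subtype b, hbF⟩ with hfb
  have hfa0 : fa ≠ 0 := fun h => ts_coeffMap_subtype_ne_zero ha0 (congrArg Subtype.val h)
  have hfb0 : fb ≠ 0 := fun h => ts_coeffMap_subtype_ne_zero hb0 (congrArg Subtype.val h)
  have hrel : f * fb = algebraMap Qb ↥(modularFunctionFieldBar N) c * fa := Subtype.ext hfab
  have hc' : algebraMap Qb ↥(modularFunctionFieldBar N) c ≠ 0 := by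
    rw [Ne, map_eq_zero]; exact hc
  have hf0 : f ≠ 0 := by
    rintro rfl
    rw [zero_mul] at hrel
    exact mul_ne_zero hc' hfa0 hrel.symm
  set Da := CurveP.divOf hx fa with hDa
  set Db := CurveP.divOf hx fb with hDb
  have hDeq : D = Da - Db := by
    ext P
    rw [Finsupp.sub_apply, hD, hDa, hDb, CurveP.divOf_apply hx hfa0, CurveP.divOf_apply hx hfb0]
    have h1 := congrArg P.ord hrel
    rw [P.ord_mul hf0 hfb0, P.ord_mul hc' hfa0, PlaceAux.ord_algebraMap] at h1
    omega
  rw [hDeq, Finsupp.mapDomain_sub, Finsupp.sub_apply]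
  rw [hr.2 a haF hak ha0 Da (fun P => CurveP.divOf_apply hx hfa0 P) Q,
    hr.2 b hbF hbk hb0 Db (fun P => CurveP.divOf_apply hx hfb0 P) Q]

/-- **S18 from its inputs** -/
theorem ts_s18_of_inputs (h : ReductionInputsModL A N) (m : ℕ) (hm0 : 0 < m)
    (hNF : ∀ f : ↥(modularFunctionFieldBar N), f ≠ 0 →
      ∃ (c : Qb) (a b : LaurentSeries ↥A), TsNormal N A f c a b)
    (hLift : ∀ gb : ↥(modularFunctionFieldFullC (IsLocalRing.ResidueField ↥A) N), gb ≠ 0 →
      ∃ (g : ↥(modularFunctionFieldBar N)) (c : Qb) (a b : LaurentSeries ↥A),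
        TsNormal N A g c a b ∧
        (gb : LaurentSeries (IsLocalRing.ResidueField ↥A)) *
          coeffMap (IsLocalRing.residue ↥A) b = coeffMap (IsLocalRing.residue ↥A) a)
    (hConst : ∀ t : ↥(modularFunctionFieldFullC (IsLocalRing.ResidueField ↥A) N), t ≠ 0 →
      (∀ Q : Place (IsLocalRing.ResidueField ↥A)
        (modularFunctionFieldFullC (IsLocalRing.ResidueField ↥A) N), Q.ord t = 0) →
      ∃ u : ↥A, IsUnit u ∧ (t : LaurentSeries (IsLocalRing.ResidueField ↥A)) =
        algebraMap (IsLocalRing.ResidueField ↥A) (LaurentSeries (IsLocalRing.ResidueField ↥A))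
          (IsLocalRing.residue ↥A u))
    (hK : ∀ y : ↥(modularFunctionFieldBar N),
      (∀ v : Place Qb (modularFunctionFieldBar N), (m : ℤ) ∣ v.ord y) →
      (∃ a b : LaurentSeries ↥A, coeffMap (IsLocalRing.residue ↥A) b ≠ 0 ∧
        coeffMap (IsLocalRing.residue ↥A) a = coeffMap (IsLocalRing.residue ↥A) b ∧
        (y : LaurentSeries Qb) * coeffMap A.subtype b = coeffMap A.subtype a) →
      ∃ g : ↥(modularFunctionFieldBar N), g ^ m = y)
    (z : JZero N) (hmz : m • z = 0) (hz : reductionModL A N z = 0) : z = 0 := by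
  classical
  obtain ⟨D, rfl⟩ := Pic0.mk_surjective z
  have hx := Fermat.Agent.S24Lib.isFunctionFieldGen_jBar N
  haveI := ts_isSeparable_jBar (N := N)
  set r := placeReductionModL h with hrdef
  have hr : IsPlaceReductionModL A N r := isPlaceReductionModL_placeReductionModL h
  -- `m • D` is principal
  have h1 : ((m • D : Divisor.degZero (K := Qb) (F := modularFunctionFieldBar N)) :
      Divisor Qb (modularFunctionFieldBar N)) ∈ Divisor.principal := by
    have h0 : (QuotientAddGroup.mk (m • D) :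
        Pic0 Qb (modularFunctionFieldBar N)) = 0 := hmz
    exact AddSubgroup.mem_addSubgroupOf.mp ((QuotientAddGroup.eq_zero_iff (m • D)).mp h0)
  obtain ⟨y, hy0, hy⟩ := h1
  have hy' : ∀ v : Place Qb (modularFunctionFieldBar N),
      (m : ℤ) * (D : Divisor Qb (modularFunctionFieldBar N)) v = v.ord y := by
    intro v
    rw [← hy v, AddSubgroupClass.coe_nsmul, Finsupp.smul_apply, nsmul_eq_mul]
  -- the reduction of `D` is principal
  rw [reductionModL_mk h D] at hz
  have h2 : Finsupp.mapDomain r (D : Divisor Qb (modularFunctionFieldBar N)) ∈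
      Divisor.principal := by
    have h0 := AddSubgroup.mem_addSubgroupOf.mp ((QuotientAddGroup.eq_zero_iff _).mp hz)
    rwa [coe_reductionDegZeroAlong] at h0
  obtain ⟨gb, hgb0, hgb⟩ := h2
  obtain ⟨g, cg, u, w, hgn, hgbuw⟩ := hLift gb hgb0
  have hg0 : g ≠ 0 := by
    rintro rfl
    obtain ⟨hc, haF, hbF, hak, hbk, ha0, hb0, hfab⟩ := hgn
    rw [ZeroMemClass.coe_zero, zero_mul] at hfab
    have h3 : algebraMap Qb (LaurentSeries Qb) cg ≠ 0 := by
      rw [Ne, map_eq_zero]; exact hc
    exact mul_ne_zero h3 (ts_coeffMap_subtype_ne_zero ha0) hfab.symm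
  -- `y₁ := y / g ^ m`
  set y1 : ↥(modularFunctionFieldBar N) := y * (g ^ m)⁻¹ with hy1
  have hy10 : y1 ≠ 0 := mul_ne_zero hy0 (inv_ne_zero (pow_ne_zero _ hg0))
  obtain ⟨c, a, b, hn1⟩ := hNF y1 hy10
  set D1 : Divisor Qb (modularFunctionFieldBar N) :=
    (D : Divisor Qb (modularFunctionFieldBar N)) - CurveP.divOf hx g with hD1
  have hD1y : ∀ P, (m • D1) P = P.ord y1 := by
    intro P
    rw [Finsupp.smul_apply, hD1, Finsupp.sub_apply, CurveP.divOf_apply hx hg0, nsmul_eq_mul,
      mul_sub, hy' P, hy1, P.ord_mul hy0 (inv_ne_zero (pow_ne_zero _ hg0)), P.ord_inv,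
      ← zpow_natCast, P.ord_zpow]
    ring
  -- the reduction of `D₁` vanishes
  have hD1r : ∀ Q, Finsupp.mapDomain r D1 Q = 0 := by
    intro Q
    rw [hD1, Finsupp.mapDomain_sub, Finsupp.sub_apply, hgb Q,
      ts_mapDomain_div hr hgn (CurveP.divOf hx g) (fun P => CurveP.divOf_apply hx hg0 P) Q]
    set ub : ↥(modularFunctionFieldFullC (IsLocalRing.ResidueField ↥A) N) :=
      ⟨coeffMap (IsLocalRing.residue ↥A) u, hgn.2.2.2.1⟩ with hub
    set wb : ↥(modularFunctionFieldFullC (IsLocalRing.ResidueField ↥A) N) :=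
      ⟨coeffMap (IsLocalRing.residue ↥A) w, hgn.2.2.2.2.1⟩ with hwb
    have hrel : gb * wb = ub := Subtype.ext hgbuw
    have hwb0 : wb ≠ 0 := fun h0 => hgn.2.2.2.2.2.2.1 (congrArg Subtype.val h0)
    have h3 := congrArg Q.ord hrel
    rw [Q.ord_mul hgb0 hwb0] at h3
    omega
  have hab : ∀ Q : Place (IsLocalRing.ResidueField ↥A)
      (modularFunctionFieldFullC (IsLocalRing.ResidueField ↥A) N),
      Q.ord (⟨coeffMap (IsLocalRing.residue ↥A) a, hn1.2.2.2.1⟩ :
        modularFunctionFieldFullC (IsLocalRing.ResidueField ↥A) N) =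
      Q.ord (⟨coeffMap (IsLocalRing.residue ↥A) b, hn1.2.2.2.2.1⟩ :
        modularFunctionFieldFullC (IsLocalRing.ResidueField ↥A) N) := by
    intro Q
    have h3 := ts_mapDomain_div hr hn1 (m • D1) hD1y Q
    have h4 : Finsupp.mapDomain r (m • D1) Q = 0 := by
      rw [Finsupp.mapDomain_smul, Finsupp.smul_apply, hD1r Q, smul_zero]
    rw [h4] at h3
    omega
  obtain ⟨hc, haF, hbF, hak, hbk, ha0, hb0, hfab⟩ := hn1
  set ab : ↥(modularFunctionFieldFullC (IsLocalRing.ResidueField ↥A) N) :=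
    ⟨coeffMap (IsLocalRing.residue ↥A) a, hak⟩ with hab'
  set bb : ↥(modularFunctionFieldFullC (IsLocalRing.ResidueField ↥A) N) :=
    ⟨coeffMap (IsLocalRing.residue ↥A) b, hbk⟩ with hbb'
  have hab0 : ab ≠ 0 := fun h0 => ha0 (congrArg Subtype.val h0)
  have hbb0 : bb ≠ 0 := fun h0 => hb0 (congrArg Subtype.val h0)
  obtain ⟨u0, hu0, hu0t⟩ := hConst (ab * bb⁻¹) (mul_ne_zero hab0 (inv_ne_zero hbb0)) (fun Q => by
    rw [Q.ord_mul hab0 (inv_ne_zero hbb0), Q.ord_inv, hab Q]
    ring)
  -- `y₂ := y₁ / (c u₀)`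
  have hu0K : ((u0 : ↥A) : Qb) ≠ 0 := by
    intro h0
    have : u0 = 0 := Subtype.ext h0
    rw [this] at hu0
    exact not_isUnit_zero hu0
  set e : Qb := c⁻¹ * ((u0 : ↥A) : Qb)⁻¹ with he
  have he0 : e ≠ 0 := mul_ne_zero (inv_ne_zero hc) (inv_ne_zero hu0K)
  set y2 : ↥(modularFunctionFieldBar N) :=
    algebraMap Qb ↥(modularFunctionFieldBar N) e * y1 with hy2
  have hy2div : ∀ v : Place Qb (modularFunctionFieldBar N), (m : ℤ) ∣ v.ord y2 := by
    intro v
    have he' : algebraMap Qb ↥(modularFunctionFieldBar N) e ≠ 0 := by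
      rw [Ne, map_eq_zero]; exact he0
    rw [hy2, v.ord_mul he' hy10, PlaceAux.ord_algebraMap, zero_add, ← hD1y v,
      Finsupp.smul_apply, nsmul_eq_mul]
    exact dvd_mul_right _ _
  have hru0 : IsLocalRing.residue ↥A u0 ≠ 0 := (hu0.map (IsLocalRing.residue ↥A)).ne_zero
  obtain ⟨g', hg'⟩ := hK y2 hy2div ⟨a, HahnSeries.C u0 * b, by
      rw [map_mul]
      refine mul_ne_zero ?_ hb0
      rw [HahnSeries.C_apply, coeffMap_single]
      exact HahnSeries.single_ne_zero hru0, by
      rw [map_mul, HahnSeries.C_apply, coeffMap_single, ← algebraMap_laurentSeries_eq_single,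
        ← hu0t]
      have h3 : ab = ab * bb⁻¹ * bb := by
        rw [mul_assoc, inv_mul_cancel₀ hbb0, mul_one]
      exact congrArg Subtype.val h3, by
      rw [map_mul, HahnSeries.C_apply, coeffMap_single, ← algebraMap_laurentSeries_eq_single]
      have h3 : ((y2 : ↥(modularFunctionFieldBar N)) : LaurentSeries Qb) =
          algebraMap Qb (LaurentSeries Qb) e * (y1 : LaurentSeries Qb) := rfl
      rw [h3]
      have h4 : algebraMap Qb (LaurentSeries Qb) e * (y1 : LaurentSeries Qb) *
          (algebraMap Qb (LaurentSeries Qb) (A.subtype u0) * coeffMap A.subtype b) =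
          algebraMap Qb (LaurentSeries Qb) e * algebraMap Qb (LaurentSeries Qb) (A.subtype u0) *
            ((y1 : LaurentSeries Qb) * coeffMap A.subtype b) := by ring
      rw [h4, hfab, ← mul_assoc, ← map_mul, ← map_mul]
      have h5 : e * A.subtype u0 * c = 1 := by
        rw [he]
        change c⁻¹ * ((u0 : ↥A) : Qb)⁻¹ * ((u0 : ↥A) : Qb) * c = 1
        field_simp
      rw [h5, map_one, one_mul]⟩
  -- conclusion: `D = div (g' * g)`
  have hg'0 : g' ≠ 0 := by
    rintro rfl
    rw [zero_pow hm0.ne'] at hg'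
    have he' : algebraMap Qb ↥(modularFunctionFieldBar N) e ≠ 0 := by
      rw [Ne, map_eq_zero]; exact he0
    exact mul_ne_zero he' hy10 hg'.symm
  have hfin : (D : Divisor Qb (modularFunctionFieldBar N)) ∈ Divisor.principal := by
    refine ⟨g' * g, mul_ne_zero hg'0 hg0, fun v => ?_⟩
    have he' : algebraMap Qb ↥(modularFunctionFieldBar N) e ≠ 0 := by
      rw [Ne, map_eq_zero]; exact he0
    have h3 : v.ord y2 = (m : ℤ) * v.ord g' := by
      rw [← hg', ← zpow_natCast, v.ord_zpow]
    have h4 : v.ord y2 = v.ord y1 := by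
      rw [hy2, v.ord_mul he' hy10, PlaceAux.ord_algebraMap, zero_add]
    have h5 : v.ord y1 = v.ord y - (m : ℤ) * v.ord g := by
      rw [hy1, v.ord_mul hy0 (inv_ne_zero (pow_ne_zero _ hg0)), v.ord_inv, ← zpow_natCast,
        v.ord_zpow]
      ring
    have h6 : (m : ℤ) * (D : Divisor Qb (modularFunctionFieldBar N)) v =
        (m : ℤ) * (v.ord g' + v.ord g) := by
      rw [hy' v]
      linarith
    have hm' : (m : ℤ) ≠ 0 := by exact_mod_cast hm0.ne'
    rw [v.ord_mul hg'0 hg0]
    exact mul_left_cancel₀ hm' h6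
  exact (QuotientAddGroup.eq_zero_iff D).mpr (AddSubgroup.mem_addSubgroupOf.mpr hfin)

end

end Fermat.Agent.T1
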