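/-
T1-B (helper9): S18 assembled from the finite-level interface at the levels `N` and `N e`
(`e = 4` or `9`) and the function-field facts on the special fibre.
-/
import Fermat.Agent.Lib.T1.S18.Reduce
import Fermat.Agent.Lib.T1.Inst.BaseQ
import Fermat.Agent.Lib.T1.Kron.K12
import Fermat.Agent.Lib.S24.GenusRR

set_option autoImplicit false
set_option linter.style.haveILetI false
set_option linter.unusedSectionVars false
set_option synthInstance.maxHeartbeats 400000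

namespace Fermat.Agent.T1

open ModularCurve AlgebraicCurve HahnSeries Fermat.Agent.Curve IntermediateField
  Fermat.Agent.TW Fermat.Agent.S05Lib

local notation "Qb" => AlgebraicClosure ℚ

noncomputable section

/-- functions without zeros and poles are constants -/
theorem ts_const_of_ord_eq_zero {k F : Type*} [Field k] [Field F] [Algebra k F] [IsAlgClosed k]
    {x : F} (hx : IsFunctionFieldGen k F x) [Algebra.IsSeparable ↥(k⟮x⟯) F]
    {t : F} (ht : ∀ Q : Place k F, Q.ord t = 0) : ∃ c : k, t = algebraMap k F c := by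
  have hmem : t ∈ riemannRochSpace (0 : Divisor k F) := by
    intro v
    rw [Finsupp.zero_apply, WithZero.exp_zero]
    exact (PlaceAux.mem_iff_adicValuation_le_one v).mp
      (PlaceAux.mem_of_ord_nonneg v (ht v).ge)
  rw [CurveP.riemannRochSpace_zero hx] at hmem
  obtain ⟨c, hc⟩ := hmem
  exact ⟨c, hc.symm⟩

variable (N : ℕ) [NeZero N] (e : ℕ) [NeZero e] (𝔓 : FFPlace)

theorem tbJ_eq_jBar : tbJ N = Fermat.Agent.S24Lib.jBar N := rfl

/-- **S18 from the levels `N` and `N e`** -/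
theorem ts_s18_of_levels
    (hOKN : ∀ H : Subgroup 𝔓.I, H.FiniteIndex → TbLevelOK 𝔓 N H)
    (hOKNe : ∀ H : Subgroup 𝔓.I, H.FiniteIndex → TbLevelOK 𝔓 (N * e) H)
    (hgenbN : IsFunctionFieldGen (IsLocalRing.ResidueField ↥𝔓.P) ↥(tbBarF 𝔓 N) (tbBarJ 𝔓 N))
    [Algebra.IsSeparable ↥((IsLocalRing.ResidueField ↥𝔓.P)⟮tbBarJ 𝔓 N⟯) ↥(tbBarF 𝔓 N)]
    (hgenb : IsFunctionFieldGen (IsLocalRing.ResidueField ↥𝔓.P) ↥(tbBarF 𝔓 (N * e))
      (tbBarJ 𝔓 (N * e)))
    [Algebra.IsSeparable ↥((IsLocalRing.ResidueField ↥𝔓.P)⟮tbBarJ 𝔓 (N * e)⟯)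
      ↥(tbBarF 𝔓 (N * e))]
    (hdeg : Module.finrank ↥((IsLocalRing.ResidueField ↥𝔓.P)⟮tbBarJ 𝔓 (N * e)⟯)
      ↥(tbBarF 𝔓 (N * e)) = dedekindPsi (N * e))
    (hgenus : genusFormula (N * e) ≤
      (CurveP.genusR (IsLocalRing.ResidueField ↥𝔓.P) ↥(tbBarF 𝔓 (N * e)) : ℚ))
    (h : ReductionInputsModL 𝔓.P N) (m : ℕ) (hm : ¬ 𝔓.p ∣ m) (z : JZero N)
    (hmz : m • z = 0) (hz : reductionModL 𝔓.P N z = 0) : z = 0 := by
  haveI : IsAlgClosed (IsLocalRing.ResidueField ↥𝔓.P) := tb_isAlgClosed_residueField 𝔓.P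
  have hm0 : 0 < m := by
    rcases Nat.eq_zero_or_pos m with h0 | h0
    · exact absurd (h0 ▸ dvd_zero 𝔓.p) hm
    · exact h0
  have hcop : Nat.Coprime m 𝔓.p := ((Nat.Prime.coprime_iff_not_dvd 𝔓.hp).mpr hm).symm
  -- the generic fibre at level `N e`
  have hgen : IsFunctionFieldGen Qb ↥(modularFunctionFieldBar (N * e)) (tbJ (N * e)) :=
    Fermat.Agent.S24Lib.isFunctionFieldGen_jBar (N * e)
  have hdeg' : Module.finrank ↥(Qb⟮tbJ (N * e)⟯) ↥(modularFunctionFieldBar (N * e)) =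
      Module.finrank ↥((IsLocalRing.ResidueField ↥𝔓.P)⟮tbBarJ 𝔓 (N * e)⟯)
        ↥(tbBarF 𝔓 (N * e)) := by
    rw [hdeg]
    exact Fermat.Agent.S24Lib.finrank_jBar (N * e)
  have hgenus' : CurveP.genusR Qb ↥(modularFunctionFieldBar (N * e)) ≤
      CurveP.genusR (IsLocalRing.ResidueField ↥𝔓.P) ↥(tbBarF 𝔓 (N * e)) := by
    haveI : Algebra.IsSeparable ↥(Qb⟮Fermat.Agent.S24Lib.jBar (N * e)⟯)
        ↥(modularFunctionFieldBar (N * e)) := ts_isSeparable_jBar
    haveI := Fermat.Agent.Curve.hasCanonicalDivisor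
      (Fermat.Agent.S24Lib.isFunctionFieldGen_jBar (N * e))
    have h1 := Fermat.Agent.S24Lib.genusR_eq_genusFormula (N * e)
    have h2 : Fermat.Agent.Curve.genusR Qb ↥(modularFunctionFieldBar (N * e)) =
        CurveP.genusR Qb ↥(modularFunctionFieldBar (N * e)) := by
      rw [← Fermat.Agent.Curve.genus_eq_genusR
        (Fermat.Agent.S24Lib.isFunctionFieldGen_jBar (N * e)),
        CurveP.genus_eq_genusR (Fermat.Agent.S24Lib.isFunctionFieldGen_jBar (N * e))]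
    rw [h2] at h1
    have h3 : (CurveP.genusR Qb ↥(modularFunctionFieldBar (N * e)) : ℚ) ≤
        (CurveP.genusR (IsLocalRing.ResidueField ↥𝔓.P) ↥(tbBarF 𝔓 (N * e)) : ℚ) := by
      rw [h1]; exact hgenus
    exact_mod_cast h3
  -- K1 + K2
  have hK12 : TkrK12 N m 𝔓.P := by
    refine tkr_K12_of_K1 N e hm0.ne' 𝔓.P ?_
    intro Y hY _ hdiv hab
    obtain ⟨a, b, hab, hb, hrep⟩ := hab
    obtain ⟨g, hg⟩ := tb_K1 hOKNe hcop hgen hgenb hdeg' hgenus' (y := ⟨Y, hY⟩) hdiv hb hab hrep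
    exact ⟨g.1, g.2, congrArg Subtype.val hg⟩
  refine ts_s18_of_inputs h m hm0 (tbq_normalForm hOKN) (ts_lift N 𝔓.P) ?_ ?_ z hmz hz
  · -- constants
    intro t ht0 ht
    obtain ⟨c, hc⟩ := ts_const_of_ord_eq_zero hgenbN ht
    obtain ⟨u, rfl⟩ := IsLocalRing.residue_surjective c
    refine ⟨u, ?_, ?_⟩
    · by_contra hu
      apply ht0
      have : IsLocalRing.residue ↥𝔓.P u = 0 := by
        rw [IsLocalRing.residue_eq_zero_iff, IsLocalRing.mem_maximalIdeal, mem_nonunits_iff]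
        exact hu
      rw [hc, this, map_zero]
    · rw [hc]
      rfl
  · -- K12
    intro y hdiv hab
    obtain ⟨a, b, hb, hab, hrep⟩ := hab
    have hy0 : y ≠ 0 := by
      rintro rfl
      rw [ZeroMemClass.coe_zero, zero_mul] at hrep
      have ha0 : coeffMap (IsLocalRing.residue ↥𝔓.P) a ≠ 0 := by rw [hab]; exact hb
      exact ts_coeffMap_subtype_ne_zero ha0 hrep.symm
    obtain ⟨t, ht⟩ := hK12 (Units.mk0 y hy0) (fun P => hdiv P) ⟨a, b, hab, hb, hrep⟩
    refine ⟨(t : ↥(modularFunctionFieldBar N)), ?_⟩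
    have := congrArg (fun u : (↥(modularFunctionFieldBar N))ˣ =>
      (u : ↥(modularFunctionFieldBar N))) ht
    simp only [Units.val_mk0, Units.val_pow_eq_pow_val] at this
    exact this.symm

end

end Fermat.Agent.T1
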