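/-
T1-B (helper9): final assembly.  Everything that S18 and K3 need follows from ONE hypothesis,
`TbAllLevelsOK 𝔓`: the finite-level good-reduction interface `TbLevelOK 𝔓 M H` at all levels `M`
prime to the residue characteristic (= the output (A1), (A3), (A4) of T1-A CORE).
-/
import Fermat.Agent.Lib.T1.S18.Assemble
import Fermat.Agent.Lib.T1.Inst.UpperQ
import Fermat.Agent.Lib.T1.Kron.K3Final

set_option autoImplicit false
set_option linter.style.haveILetI false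
set_option linter.unusedSectionVars false
set_option synthInstance.maxHeartbeats 400000

namespace Fermat.Agent.T1

open ModularCurve AlgebraicCurve HahnSeries Fermat.Agent.Curve IntermediateField
  Fermat.Agent.TW Fermat.Agent.S05Lib

local notation "Qb" => AlgebraicClosure ℚ
local notation "GQ" => (AlgebraicClosure ℚ ≃ₐ[ℚ] AlgebraicClosure ℚ)

noncomputable section

/-- the good-reduction interface at all levels prime to the residue characteristic -/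
def TbAllLevelsOK (𝔓 : FFPlace) : Prop :=
  ∀ (M : ℕ) [NeZero M], ¬ 𝔓.p ∣ M → ∀ H : Subgroup 𝔓.I, H.FiniteIndex → TbLevelOK 𝔓 M H

variable {𝔓 : FFPlace}

/-- an auxiliary level `e ∈ {4, 9}` prime to the residue characteristic -/
theorem tbq_exists_aux_level (𝔓 : FFPlace) : ∃ e : ℕ, (e = 4 ∨ e = 9) ∧ ¬ 𝔓.p ∣ e := by
  by_cases h2 : 𝔓.p = 2
  · refine ⟨9, Or.inr rfl, ?_⟩
    rw [h2]
    norm_num
  · refine ⟨4, Or.inl rfl, fun h => h2 ?_⟩
    have h4 : 𝔓.p ∣ 2 ^ 2 := by norm_num; exact h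
    exact (Nat.prime_dvd_prime_iff_eq 𝔓.hp Nat.prime_two).mp (𝔓.hp.dvd_of_dvd_pow h4)

/-- **`genus(F̄_N) = genusFormula N`** when `4 ∣ N` or `9 ∣ N` -/
theorem tbq_genusR_ge (hall : TbAllLevelsOK 𝔓) {N : ℕ} [NeZero N] (h49 : 4 ∣ N ∨ 9 ∣ N)
    (hN : ¬ 𝔓.p ∣ N) :
    genusFormula N ≤ (CurveP.genusR (IsLocalRing.ResidueField ↥𝔓.P) ↥(tbBarF 𝔓 N) : ℚ) := by
  rcases h49 with h4 | h9
  · exact tbq_genusR_ge_four h4 hN (hall 4 fun h => hN (h.trans h4)) (hall N hN)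
  · exact tbq_genusR_ge_nine h9 hN (hall 9 fun h => hN (h.trans h9)) (hall N hN)

/-- the `F̄`-side inputs of K1 -/
theorem tkr_barOK_of_allLevels (hall : TbAllLevelsOK 𝔓) {N : ℕ} [NeZero N]
    (h49 : 4 ∣ N ∨ 9 ∣ N) (hN : ¬ 𝔓.p ∣ N) : TkrBarOK 𝔓 N where
  gen := tbq_bar_isFunctionFieldGen 𝔓 N
  sep := tbq_bar_isSeparable hN
  deg := by
    rw [tbq_finrank_bar (hall N hN) hN]
    exact Fermat.Agent.S24Lib.finrank_jBar N
  genus := by
    have h1 := tbq_genusR_ge hall h49 hN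
    rw [← tbq_genusR_bar_eq] at h1
    exact_mod_cast h1

/-- **S18** from the good-reduction interface -/
theorem ts_s18_of_allLevels (hall : TbAllLevelsOK 𝔓) (N : ℕ) [NeZero N] (hN : ¬ 𝔓.p ∣ N)
    (h : ReductionInputsModL 𝔓.P N) (m : ℕ) (hm : ¬ 𝔓.p ∣ m) (z : JZero N)
    (hmz : m • z = 0) (hz : reductionModL 𝔓.P N z = 0) : z = 0 := by
  obtain ⟨e, he, hpe⟩ := tbq_exists_aux_level 𝔓
  haveI : NeZero e := ⟨by rcases he with rfl | rfl <;> norm_num⟩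
  have hNe : ¬ 𝔓.p ∣ N * e := fun h => (𝔓.hp.dvd_mul.mp h).elim hN hpe
  have h49 : 4 ∣ N * e ∨ 9 ∣ N * e := by
    rcases he with rfl | rfl
    · exact Or.inl (dvd_mul_left 4 N)
    · exact Or.inr (dvd_mul_left 9 N)
  haveI := tbq_bar_isSeparable hN
  haveI := tbq_bar_isSeparable hNe
  exact ts_s18_of_levels N e 𝔓 (hall N hN) (hall (N * e) hNe) (tbq_bar_isFunctionFieldGen 𝔓 N)
    (tbq_bar_isFunctionFieldGen 𝔓 (N * e)) (tbq_finrank_bar (hall (N * e) hNe) hNe)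
    (tbq_genusR_ge hall h49 hNe) h m hm z hmz hz

/-- **K3 (i)** from the good-reduction interface -/
theorem tkr_K3_inertia_allLevels (hall : TbAllLevelsOK 𝔓) {N : ℕ} [NeZero N] (hN : ¬ 𝔓.p ∣ N)
    {m : ℕ} (hm : Nat.Coprime m 𝔓.p) (hm0 : m ≠ 0) {σ : GQ}
    (hσ : σ ∈ 𝔓.P.inertiaSubgroupIn ℚ) {y : (↥(modularFunctionFieldBar N))ˣ}
    (hy : y ∈ tWsub Qb N m) :
    ∃ t : (↥(modularFunctionFieldBar N))ˣ, tkrSig N σ y = y * t ^ m := by
  obtain ⟨e, he, hpe⟩ := tbq_exists_aux_level 𝔓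
  haveI : NeZero e := ⟨by rcases he with rfl | rfl <;> norm_num⟩
  have hNe : ¬ 𝔓.p ∣ N * e := fun h => (𝔓.hp.dvd_mul.mp h).elim hN hpe
  have h49 : 4 ∣ N * e ∨ 9 ∣ N * e := by
    rcases he with rfl | rfl
    · exact Or.inl (dvd_mul_left 4 N)
    · exact Or.inr (dvd_mul_left 9 N)
  exact tkr_K3_inertia_final e (hall N hN) (hall (N * e) hNe)
    (tkr_barOK_of_allLevels hall h49 hNe) hm hm0 hσ hy

/-- **K3 (ii)** from the good-reduction interface -/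
theorem tkr_K3_frob_allLevels (hall : TbAllLevelsOK 𝔓) {N : ℕ} [NeZero N] (hN : ¬ 𝔓.p ∣ N)
    {m : ℕ} (hm : Nat.Coprime m 𝔓.p) (hm0 : m ≠ 0) {σ : GQ}
    (hσ : 𝔓.P.IsFrobeniusAt σ 𝔓.p)
    {y : (↥(modularFunctionFieldBar N))ˣ} (hy : y ∈ tWsub Qb N m)
    (hT : tkrHeckeUnits N 𝔓.p (tkrSig N σ y) ∈ tWsub Qb N m) :
    ∃ t : (↥(modularFunctionFieldBar N))ˣ,
      tkrSig N σ (tkrSig N σ y) * y ^ 𝔓.p = tkrHeckeUnits N 𝔓.p (tkrSig N σ y) * t ^ m := by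
  obtain ⟨e, he, hpe⟩ := tbq_exists_aux_level 𝔓
  haveI : NeZero e := ⟨by rcases he with rfl | rfl <;> norm_num⟩
  have hNe : ¬ 𝔓.p ∣ N * e := fun h => (𝔓.hp.dvd_mul.mp h).elim hN hpe
  have h49 : 4 ∣ N * e ∨ 9 ∣ N * e := by
    rcases he with rfl | rfl
    · exact Or.inl (dvd_mul_left 4 N)
    · exact Or.inr (dvd_mul_left 9 N)
  exact tkr_K3_frob_final e (hall N hN) (hall (N * e) hNe)
    (tkr_barOK_of_allLevels hall h49 hNe) hm hm0 hN hσ hy hT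

end

end Fermat.Agent.T1
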