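/-
T1-B (helper9): `TbAllLevelsOK 𝔓` holds for every place `𝔓` of `ℚ̄` (T1-A CORE through the
conversion `tbq_levelOK`), hence S18 and K3 unconditionally.
-/
import Fermat.Agent.Lib.T1.S18.Final
import Fermat.Agent.Lib.T1.Inst.FromTa

set_option autoImplicit false
set_option linter.style.haveILetI false
set_option linter.unusedSectionVars false
set_option synthInstance.maxHeartbeats 400000

namespace Fermat.Agent.T1

open ModularCurve AlgebraicCurve HahnSeries Fermat.Agent.Curve IntermediateField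
  Fermat.Agent.TW Fermat.Agent.S05Lib

local notation "Qb" => AlgebraicClosure ℚ
local notation "GQ" => (AlgebraicClosure ℚ ≃ₐ[ℚ] AlgebraicClosure ℚ)

noncomputable section

/-- **good reduction at all levels prime to the residue characteristic** -/
theorem tbq_allLevelsOK (𝔓 : FFPlace) : TbAllLevelsOK 𝔓 := by
  intro M _ hM H hH
  haveI := hH
  exact tbq_levelOK 𝔓 M H hM

/-- **S18** -/
theorem ts_s18 (𝔓 : FFPlace) (N : ℕ) [NeZero N] (hN : ¬ 𝔓.p ∣ N)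
    (h : ReductionInputsModL 𝔓.P N) (m : ℕ) (hm : ¬ 𝔓.p ∣ m) (z : JZero N)
    (hmz : m • z = 0) (hz : reductionModL 𝔓.P N z = 0) : z = 0 :=
  ts_s18_of_allLevels (tbq_allLevelsOK 𝔓) N hN h m hm z hmz hz

/-- the `F̄`-side inputs of K1, unconditionally -/
theorem tkr_barOK (𝔓 : FFPlace) {N : ℕ} [NeZero N] (h49 : 4 ∣ N ∨ 9 ∣ N) (hN : ¬ 𝔓.p ∣ N) :
    TkrBarOK 𝔓 N :=
  tkr_barOK_of_allLevels (tbq_allLevelsOK 𝔓) h49 hN

/-- **K3 (i)**: inertia at `𝔓` acts trivially on `tWsub` modulo `m`-th powers -/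
theorem tkr_K3_inertia_uncond (𝔓 : FFPlace) {N : ℕ} [NeZero N] (hN : ¬ 𝔓.p ∣ N)
    {m : ℕ} (hm : Nat.Coprime m 𝔓.p) (hm0 : m ≠ 0) {σ : GQ}
    (hσ : σ ∈ 𝔓.P.inertiaSubgroupIn ℚ) {y : (↥(modularFunctionFieldBar N))ˣ}
    (hy : y ∈ tWsub Qb N m) :
    ∃ t : (↥(modularFunctionFieldBar N))ˣ, tkrSig N σ y = y * t ^ m :=
  tkr_K3_inertia_allLevels (tbq_allLevelsOK 𝔓) hN hm hm0 hσ hy

/-- **K3 (ii)**: the Eichler–Shimura relation on functions -/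
theorem tkr_K3_frob_uncond (𝔓 : FFPlace) {N : ℕ} [NeZero N] (hN : ¬ 𝔓.p ∣ N)
    {m : ℕ} (hm : Nat.Coprime m 𝔓.p) (hm0 : m ≠ 0) {σ : GQ}
    (hσ : 𝔓.P.IsFrobeniusAt σ 𝔓.p)
    {y : (↥(modularFunctionFieldBar N))ˣ} (hy : y ∈ tWsub Qb N m)
    (hT : tkrHeckeUnits N 𝔓.p (tkrSig N σ y) ∈ tWsub Qb N m) :
    ∃ t : (↥(modularFunctionFieldBar N))ˣ,
      tkrSig N σ (tkrSig N σ y) * y ^ 𝔓.p = tkrHeckeUnits N 𝔓.p (tkrSig N σ y) * t ^ m :=
  tkr_K3_frob_allLevels (tbq_allLevelsOK 𝔓) hN hm hm0 hσ hy hT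

end

end Fermat.Agent.T1
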