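/-
T1-B (helper9): orders at a place of an algebraic extension are multiples of the orders at the
restricted place: `ord_v (f) = e · ord_{v|F} (f)` for `f ∈ F`.  Hence divisibility of a divisor by
`m` persists in algebraic extensions.
-/
import Fermat.Agent.Lib.Curve.PlaceRestrict

set_option autoImplicit false
set_option linter.unusedSectionVars false

namespace Fermat.Agent.T1

open AlgebraicCurve Fermat.Agent.Curve

variable {K F L : Type*} [Field K] [Field F] [Field L] [Algebra K F] [Algebra F L] [Algebra K L]
  [IsScalarTower K F L] [Algebra.IsAlgebraic F L]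

/-- units of the restricted place have order zero -/
theorem ts_ord_algebraMap_unit (v : Place K L)
    (u : (PlaceAux.restrict (F := F) v).toValuationSubringˣ) :
    v.ord (algebraMap F L ((u : (PlaceAux.restrict (F := F) v).toValuationSubring) : F)) = 0 := by
  set w : F := ((u : (PlaceAux.restrict (F := F) v).toValuationSubring) : F) with hw
  have hw0 : w ≠ 0 := by
    simp [hw, ne_eq, ZeroMemClass.coe_eq_zero]
  have h1 : algebraMap F L w ∈ v.toValuationSubring :=
    (PlaceAux.mem_restrict_iff v w).mp (Subtype.mem _)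
  have h2 : algebraMap F L w⁻¹ ∈ v.toValuationSubring := by
    apply (PlaceAux.mem_restrict_iff v w⁻¹).mp
    have h3 : w⁻¹ = (((u⁻¹ : (PlaceAux.restrict (F := F) v).toValuationSubringˣ) :
        (PlaceAux.restrict (F := F) v).toValuationSubring) : F) := by
      rw [inv_eq_iff_eq_inv]
      apply eq_inv_of_mul_eq_one_left
      have h0 : ((u : (PlaceAux.restrict (F := F) v).toValuationSubring) *
          ((u⁻¹ : (PlaceAux.restrict (F := F) v).toValuationSubringˣ) :
            (PlaceAux.restrict (F := F) v).toValuationSubring) :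
          (PlaceAux.restrict (F := F) v).toValuationSubring) = 1 := u.mul_inv
      have := congrArg (Subtype.val : (PlaceAux.restrict (F := F) v).toValuationSubring → F) h0
      rwa [MulMemClass.coe_mul] at this
    rw [h3]
    exact Subtype.mem _
  have h4 := PlaceAux.ord_nonneg_of_mem v h1
  have h5 := PlaceAux.ord_nonneg_of_mem v h2
  rw [map_inv₀, v.ord_inv] at h5
  omega

/-- `ord_v (f) = e · ord_{v|F} (f)` -/
theorem ts_ord_algebraMap_eq (v : Place K L) :
    ∃ e : ℤ, ∀ f : F, v.ord (algebraMap F L f) = e * (PlaceAux.restrict (F := F) v).ord f := by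
  obtain ⟨ϖ, hϖ⟩ := IsDiscreteValuationRing.exists_irreducible
    (PlaceAux.restrict (F := F) v).toValuationSubring
  refine ⟨v.ord (algebraMap F L (ϖ : F)), fun f => ?_⟩
  rcases eq_or_ne f 0 with rfl | hf
  · rw [map_zero, v.ord_zero, Place.ord_zero, mul_zero]
  obtain ⟨u, hu⟩ := (PlaceAux.restrict (F := F) v).exists_unit_mul_zpow hf hϖ
  have hϖ0 : (ϖ : F) ≠ 0 := by
    simpa [ne_eq, ZeroMemClass.coe_eq_zero] using hϖ.ne_zero
  have hu0 : ((u : (PlaceAux.restrict (F := F) v).toValuationSubring) : F) ≠ 0 := by
    simp [ne_eq, ZeroMemClass.coe_eq_zero]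
  conv_lhs => rw [hu]
  rw [map_mul, map_zpow₀, v.ord_mul ((map_ne_zero _).mpr hu0)
    (zpow_ne_zero _ ((map_ne_zero _).mpr hϖ0)), ts_ord_algebraMap_unit, zero_add, v.ord_zpow]
  ring

/-- divisibility of all orders persists in algebraic extensions -/
theorem ts_dvd_ord_algebraMap {m : ℤ} {y : F} (h : ∀ u : Place K F, m ∣ u.ord y)
    (v : Place K L) : m ∣ v.ord (algebraMap F L y) := by
  obtain ⟨e, he⟩ := ts_ord_algebraMap_eq (F := F) v
  rw [he]
  exact Dvd.dvd.mul_left (h _) e

end Fermat.Agent.T1
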